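/-
S56, node [LOC-TW] (helper2): THE LOCAL COUNT AT A TAYLOR–WILES PRIME, `h¹(G_q, M) ≤ 2 h⁰(G_q, M)`
(`s56a_LocTW_stmt` of `S56/Asm/Seams.lean`).  Prefix `s56w_`.

On top of helper7's `s56ld_cH1_le` (`S56/LocD/Bridge.lean`):
  `dim s56gw_cH1 M q ≤ dim s56ld_unr M q + dim ker (M.ρ φ - q)`,
we prove, MODULO THE SEAM `s56w_FrobGen` (the decomposition group is generated by Frobenius modulo
inertia and any open subgroup; helper29's `s56q_frob_gen`):

* `s56w_unr_eq_zero`   : an unramified cocycle vanishing at a lift of Frobenius vanishes;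
* `s56w_unr_le`        : `dim s56ld_unr M q ≤ dim ker (M.ρ φ - 1)`  (`c ↦ c(f) mod (φ - 1) M`);
* `s56w_fix_of_frob`   : `M^φ = M^{D_q}` for `M` smooth and unramified;
* `s56w_main_of_gen`   : the count, for `p ∣ q - 1`;
* `s56w_main`          : `s56w_FrobGen_stmt → s56a_LocTW_stmt`.
-/
import Mathlib
import Fermat.Agent.S56.LocD.Bridge
import Fermat.Agent.S56.Asm.Seams

set_option autoImplicit false
set_option linter.unusedSectionVars false
set_option linter.style.haveILetI false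

noncomputable section

namespace Fermat.Agent.S56

open CategoryTheory Module groupCohomology ExtCitation
open Fermat.Agent.MZ Fermat.Agent.S55

local notation "Qb" => AlgebraicClosure ℚ
local notation "GQ" => (AlgebraicClosure ℚ ≃ₐ[ℚ] AlgebraicClosure ℚ)

/-- **seam [FROB-GEN]** (helper29's `s56q_frob_gen`): modulo inertia and any open subgroup, the
decomposition group of `primeLocalPlace q` is generated by the Frobenius `φ` -/
def s56w_FrobGen (q : Nat.Primes) (φ : GQ) : Prop :=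
  ∀ F : IntermediateField ℚ Qb, FiniteDimensional ℚ F →
    ∀ σ ∈ (primeLocalPlace q).decompositionSubgroup ℚ,
      ∃ n : ℤ, ∃ τ ∈ (primeLocalPlace q).inertiaSubgroupIn ℚ,
        (φ ^ n * τ)⁻¹ * σ ∈ F.fixingSubgroup

/-- the seam for all primes and all Frobenius elements -/
def s56w_FrobGen_stmt : Prop :=
  ∀ (q : Nat.Primes) (φ : GQ), (primeLocalPlace q).IsFrobeniusAt φ (q : ℕ) → s56w_FrobGen q φ

section abstract

/-- a general rank bound: if `ker g ≤ ker π` then `rank π ≤ dim (codomain of g)` -/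
theorem s56w_finrank_range_le {k Z H Q : Type} [Field k] [AddCommGroup Z] [Module k Z]
    [AddCommGroup H] [Module k H] [AddCommGroup Q] [Module k Q] [FiniteDimensional k Q]
    (π : Z →ₗ[k] H) (g : Z →ₗ[k] Q) (h : LinearMap.ker g ≤ LinearMap.ker π) :
    FiniteDimensional k (LinearMap.range π) ∧ finrank k (LinearMap.range π) ≤ finrank k Q := by
  have e := LinearMap.quotKerEquivRange g
  haveI : FiniteDimensional k (Z ⧸ LinearMap.ker g) := LinearEquiv.finiteDimensional e.symm
  have hr : LinearMap.range ((LinearMap.ker g).liftQ π h) = LinearMap.range π :=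
    Submodule.range_liftQ _ _ _
  rw [← hr]
  refine ⟨inferInstance, ?_⟩
  calc finrank k (LinearMap.range ((LinearMap.ker g).liftQ π h))
      ≤ finrank k (Z ⧸ LinearMap.ker g) := LinearMap.finrank_range_le _
    _ = finrank k (LinearMap.range g) := LinearEquiv.finrank_eq e
    _ ≤ finrank k Q := Submodule.finrank_le _

end abstract

section unr

variable {p : ℕ} [Fact p.Prime] (q : Nat.Primes) (M : Rep.{0} (ZMod p) GQ)
  (hunr : ∀ g ∈ (primeLocalPlace q).inertiaSubgroupIn ℚ, M.ρ g = 1)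

/-- the cocycle relation, in terms of `M.ρ` -/
theorem s56w_coc_mul (c : cocycles₁ (s56gw_res M q)) (g h : primeLocalGaloisGroup q) :
    c (g * h) = M.ρ (primeLocalToGlobal q g) (c h) + c g :=
  (mem_cocycles₁_iff c).1 c.2 g h

theorem s56w_coc_inv (c : cocycles₁ (s56gw_res M q)) (g : primeLocalGaloisGroup q) :
    M.ρ (primeLocalToGlobal q g) (c g⁻¹) = -c g :=
  cocycles₁_map_inv c g

theorem s56w_coc_inv_zero (c : cocycles₁ (s56gw_res M q)) {f : primeLocalGaloisGroup q}
    (h : c f = 0) : c f⁻¹ = 0 := by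
  have h1 := s56w_coc_inv q M c f⁻¹
  rw [inv_inv, h, map_zero] at h1
  exact neg_eq_zero.1 h1.symm

theorem s56w_coc_pow_zero (c : cocycles₁ (s56gw_res M q)) {f : primeLocalGaloisGroup q}
    (h : c f = 0) (n : ℕ) : c (f ^ n) = 0 := by
  induction n with
  | zero => rw [pow_zero, cocycles₁_map_one]
  | succ n ih => rw [pow_succ, s56w_coc_mul, h, map_zero, ih, add_zero]

theorem s56w_coc_zpow_zero (c : cocycles₁ (s56gw_res M q)) {f : primeLocalGaloisGroup q}
    (h : c f = 0) (n : ℤ) : c (f ^ n) = 0 := by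
  obtain ⟨k, rfl | rfl⟩ := n.eq_nat_or_neg
  · rw [zpow_natCast]
    exact s56w_coc_pow_zero q M c h k
  · rw [zpow_neg, zpow_natCast]
    exact s56w_coc_inv_zero q M c (s56w_coc_pow_zero q M c h k)

/-- an unramified cocycle vanishing at a Frobenius lift vanishes identically -/
theorem s56w_unr_eq_zero {φ : GQ} (hgen : s56w_FrobGen q φ) {f : primeLocalGaloisGroup q}
    (hf : primeLocalToGlobal q f = φ) (c : cocycles₁ (s56gw_res M q))
    (hc : c ∈ s56ld_unrCoc M q) (hcf : c f = 0) (g : primeLocalGaloisGroup q) : c g = 0 := by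
  obtain ⟨⟨F, hF, hFc⟩, hcI⟩ := hc
  have hσ : primeLocalToGlobal q g ∈ (primeLocalPlace q).decompositionSubgroup ℚ :=
    (s56ld_range q _).2 ⟨g, rfl⟩
  obtain ⟨n, τ, hτ, hu⟩ := hgen F hF _ hσ
  obtain ⟨sτ, hsτ⟩ := s56ld_inertia_le q τ hτ
  set g' := f ^ n * sτ with hg'
  have h1 : primeLocalToGlobal q (g'⁻¹ * g) ∈ F.fixingSubgroup := by
    rw [map_mul, map_inv, hg', map_mul, map_zpow, hf, hsτ]
    exact hu
  have h2 := hFc g' (g'⁻¹ * g) h1
  rw [mul_inv_cancel_left] at h2
  have h3 : c g = c g' := h2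
  rw [h3, hg', s56w_coc_mul, hcI sτ (by rw [hsτ]; exact hτ), map_zero, zero_add]
  exact s56w_coc_zpow_zero q M c hcf n

/-- evaluation of cocycles at an element, as a linear map -/
def s56w_ev (t : primeLocalGaloisGroup q) : cocycles₁ (s56gw_res M q) →ₗ[ZMod p] M where
  toFun c := c t
  map_add' _ _ := rfl
  map_smul' _ _ := rfl

theorem s56w_ev_apply (t : primeLocalGaloisGroup q) (c : cocycles₁ (s56gw_res M q)) :
    s56w_ev q M t c = c t := rfl

/-- the coboundary of `m`, as a cocycle of `G_q` -/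
def s56w_cob (m : M) : cocycles₁ (s56gw_res M q) :=
  ⟨(d₀₁ (s56gw_res M q)).hom m, d₀₁_apply_mem_cocycles₁ (A := s56gw_res M q) m⟩

theorem s56w_cob_apply (m : M) (g : primeLocalGaloisGroup q) :
    s56w_cob q M m g = M.ρ (primeLocalToGlobal q g) m - m :=
  d₀₁_hom_apply (s56gw_res M q) m g

theorem s56w_H1π_cob (m : M) : (H1π (s56gw_res M q)).hom (s56w_cob q M m) = 0 := by
  refine (H1π_eq_zero_iff (s56w_cob q M m)).2 ?_
  exact ⟨m, rfl⟩

include hunr in
theorem s56w_cob_mem_unr (hsm : s56gw_Smooth M) (m : M) :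
    s56w_cob q M m ∈ s56ld_unrCoc M q := by
  obtain ⟨F, hF, hFm⟩ := hsm m
  refine ⟨⟨F, hF, fun g s hs => ?_⟩, fun s hs => ?_⟩
  · show s56w_cob q M m (g * s) = s56w_cob q M m g
    rw [s56w_cob_apply, s56w_cob_apply, map_mul, map_mul, Module.End.mul_apply, hFm _ hs]
  · show s56w_cob q M m s = 0
    rw [s56w_cob_apply, hunr _ hs, Module.End.one_apply, sub_self]

include hunr in
/-- an unramified cocycle whose value at a Frobenius lift is in `(φ − 1) M` is a coboundary -/
theorem s56w_unr_class_zero (hsm : s56gw_Smooth M) {φ : GQ} (hgen : s56w_FrobGen q φ)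
    {f : primeLocalGaloisGroup q} (hf : primeLocalToGlobal q f = φ)
    (c : cocycles₁ (s56gw_res M q)) (hc : c ∈ s56ld_unrCoc M q) (m : M)
    (hm : c f = M.ρ φ m - m) : (H1π (s56gw_res M q)).hom c = 0 := by
  have h1 : c - s56w_cob q M m ∈ s56ld_unrCoc M q :=
    Submodule.sub_mem _ hc (s56w_cob_mem_unr q M hunr hsm m)
  have h2 : (c - s56w_cob q M m) f = 0 := by
    change c f - s56w_cob q M m f = 0
    rw [s56w_cob_apply, hf, hm, sub_self]
  have h3 : c - s56w_cob q M m = 0 :=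
    cocycles₁_ext fun g => s56w_unr_eq_zero q M hgen hf _ h1 h2 g
  rw [sub_eq_zero.1 h3]
  exact s56w_H1π_cob q M m

include hunr in
/-- **(Q2)**: the unramified classes have dimension at most `dim ker(φ − 1)` -/
theorem s56w_unr_le [FiniteDimensional (ZMod p) M] (hsm : s56gw_Smooth M) {φ : GQ}
    (hφ : (primeLocalPlace q).IsFrobeniusAt φ (q : ℕ)) (hgen : s56w_FrobGen q φ) :
    FiniteDimensional (ZMod p) (s56ld_unr M q) ∧
      finrank (ZMod p) (s56ld_unr M q)
        ≤ finrank (ZMod p) (LinearMap.ker (M.ρ φ - 1)) := by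
  obtain ⟨f, hf⟩ := (s56ld_range q φ).1 hφ.mem_decompositionSubgroup
  set T : M →ₗ[ZMod p] M := M.ρ φ - 1 with hT
  set R : Submodule (ZMod p) M := LinearMap.range T with hR
  let π : s56ld_unrCoc M q →ₗ[ZMod p] H1 (s56gw_res M q) :=
    (H1π (s56gw_res M q)).hom.comp (s56ld_unrCoc M q).subtype
  let g : s56ld_unrCoc M q →ₗ[ZMod p] (M ⧸ R) :=
    (R.mkQ.comp (s56w_ev q M f)).comp (s56ld_unrCoc M q).subtype
  have hker : LinearMap.ker g ≤ LinearMap.ker π := by
    intro c hc
    have h1 : R.mkQ (c.1 f) = 0 := hc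
    rw [Submodule.mkQ_apply, Submodule.Quotient.mk_eq_zero] at h1
    obtain ⟨m, hm⟩ := h1
    rw [LinearMap.mem_ker]
    refine s56w_unr_class_zero q M hunr hsm hgen hf c.1 c.2 m ?_
    rw [← hm, hT, LinearMap.sub_apply, Module.End.one_apply]
  have hrange : LinearMap.range π = s56ld_unr M q := by
    rw [s56ld_unr, LinearMap.range_comp, Submodule.range_subtype]
  obtain ⟨h1, h2⟩ := s56w_finrank_range_le π g hker
  rw [hrange] at h1 h2
  refine ⟨h1, h2.trans (le_of_eq ?_)⟩
  have h3 := Submodule.finrank_quotient_add_finrank (LinearMap.range T)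
  have h4 := LinearMap.finrank_range_add_finrank_ker T
  show finrank (ZMod p) (M ⧸ LinearMap.range T) = finrank (ZMod p) (LinearMap.ker T)
  omega

/-- the stabiliser of a vector -/
def s56w_stab (m : M) : Subgroup GQ where
  carrier := {g | M.ρ g m = m}
  mul_mem' := by
    intro a b ha hb
    show M.ρ (a * b) m = m
    rw [map_mul, Module.End.mul_apply, hb, ha]
  one_mem' := by
    show M.ρ 1 m = m
    rw [map_one, Module.End.one_apply]
  inv_mem' := by
    intro a ha
    show M.ρ a⁻¹ m = m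
    have h1 : M.ρ a⁻¹ (M.ρ a m) = m := by
      rw [← Module.End.mul_apply, ← map_mul, inv_mul_cancel, map_one, Module.End.one_apply]
    rw [ha] at h1
    exact h1

theorem s56w_mem_stab (m : M) (g : GQ) : g ∈ s56w_stab M m ↔ M.ρ g m = m := Iff.rfl

include hunr in
/-- the vectors fixed by Frobenius are fixed by the whole decomposition group -/
theorem s56w_fix_of_frob (hsm : s56gw_Smooth M) {φ : GQ} (hgen : s56w_FrobGen q φ) {m : M}
    (hm : M.ρ φ m = m) (g : primeLocalGaloisGroup q) : M.ρ (primeLocalToGlobal q g) m = m := by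
  obtain ⟨F, hF, hFm⟩ := hsm m
  have hσ : primeLocalToGlobal q g ∈ (primeLocalPlace q).decompositionSubgroup ℚ :=
    (s56ld_range q _).2 ⟨g, rfl⟩
  obtain ⟨n, τ, hτ, hu⟩ := hgen F hF _ hσ
  have h1 : φ ^ n ∈ s56w_stab M m := Subgroup.zpow_mem _ hm n
  have h2 : τ ∈ s56w_stab M m := by
    rw [s56w_mem_stab, hunr τ hτ, Module.End.one_apply]
  have h3 : (φ ^ n * τ)⁻¹ * primeLocalToGlobal q g ∈ s56w_stab M m := hFm _ hu
  have h4 := Subgroup.mul_mem _ (Subgroup.mul_mem _ h1 h2) h3
  rw [mul_inv_cancel_left] at h4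
  exact h4

include hunr in
theorem s56w_finrank_fix_le [FiniteDimensional (ZMod p) M] (hsm : s56gw_Smooth M) {φ : GQ}
    (hgen : s56w_FrobGen q φ) :
    finrank (ZMod p) (LinearMap.ker (M.ρ φ - 1))
      ≤ finrank (ZMod p) (s56gw_res M q).ρ.invariants := by
  have h : LinearMap.ker (M.ρ φ - 1) ≤ ((s56gw_res M q).ρ.invariants : Submodule (ZMod p) M) := by
    intro m hm
    rw [LinearMap.mem_ker, LinearMap.sub_apply, Module.End.one_apply, sub_eq_zero] at hm
    exact fun g => s56w_fix_of_frob q M hunr hsm hgen hm g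
  exact Submodule.finrank_mono h

include hunr in
/-- **(S-TW)** the local count at a Taylor–Wiles prime, modulo the seam [FROB-GEN] -/
theorem s56w_main_of_gen (hdvd : p ∣ (q : ℕ) - 1) [FiniteDimensional (ZMod p) M]
    (hsm : s56gw_Smooth M) {φ : GQ} (hφ : (primeLocalPlace q).IsFrobeniusAt φ (q : ℕ))
    (hgen : s56w_FrobGen q φ) :
    FiniteDimensional (ZMod p) (s56gw_cH1 M q) ∧
      finrank (ZMod p) (s56gw_cH1 M q)
        ≤ 2 * finrank (ZMod p) (s56gw_res M q).ρ.invariants := by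
  have hp : p.Prime := Fact.out
  have hq1 : 1 ≤ (q : ℕ) := q.2.one_lt.le
  have hpq : p ≠ (q : ℕ) := by
    intro h
    rw [← h] at hdvd
    have := Nat.le_of_dvd (Nat.sub_pos_of_lt hp.one_lt) hdvd
    have := hp.one_lt
    omega
  have hq : ((q : ℕ) : ZMod p) = 1 := by
    have h1 : (((q : ℕ) - 1 : ℕ) : ZMod p) = 0 := (ZMod.natCast_eq_zero_iff _ _).2 hdvd
    rw [Nat.cast_sub hq1, Nat.cast_one, sub_eq_zero] at h1
    exact h1
  have hK : LinearMap.ker (M.ρ φ - ((q : ℕ) : ZMod p) • LinearMap.id)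
      = LinearMap.ker (M.ρ φ - 1) := by
    rw [hq, one_smul]
    rfl
  obtain ⟨h1, h2⟩ := s56w_unr_le q M hunr hsm hφ hgen
  haveI := h1
  obtain ⟨h3, h4⟩ := s56ld_cH1_le M q hpq hunr hφ
  have h5 := s56w_finrank_fix_le q M hunr hsm hgen
  rw [hK] at h4
  exact ⟨h3, by omega⟩

end unr

/-- **[LOC-TW]**: the seam [FROB-GEN] implies the local count at the Taylor–Wiles primes. -/
theorem s56w_main (hgen : s56w_FrobGen_stmt) : s56a_LocTW_stmt := by
  intro p _ M _ hsm q _ hdvd hunr
  have hq : (q : ℕ).Prime := q.2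
  obtain ⟨φ, hφ⟩ := Fermat.Agent.JT3.fex_exists_isFrobeniusAt hq (primeLocalPlace q)
    (s56ld_liesOver q)
  exact s56w_main_of_gen q M (hunr _ (s56ld_liesOver q)) hdvd hsm hφ (hgen q φ hφ)

end Fermat.Agent.S56
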