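/-
S56, node [LOC-TW] (helper2): THE SEAM [FROB-GEN]: modulo inertia and any open subgroup, the
decomposition group of a place of `Q̄` over `q` is generated by a Frobenius.  Prefix `s56w_`.

* `s56w_frob_mod_inertia` (generic): `G` acting on `B ⊇ A`, `Q ⊂ B` a prime over `P ⊂ A` with finite
  residue fields, `φ` a Frobenius at `Q`: every `g` in the stabiliser of `Q` is `φ ^ n` modulo the
  inertia group (Galois theory of finite fields, `FiniteField.bijective_frobeniusAlgEquivOfAlgebraic_pow`);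
* `s56w_frobGen` : `s56w_FrobGen_stmt`;
* `s56w_locTW` : `s56a_LocTW_stmt`.
-/
import Mathlib
import Fermat.Agent.S55.Places.Galois
import Fermat.Agent.S55.Places.Local
import Fermat.Agent.MZ.F3.TameFrobAt
import Fermat.Agent.S56.LocTW.Main

set_option autoImplicit false
set_option linter.unusedSectionVars false
set_option linter.style.haveILetI false

noncomputable section

namespace Fermat.Agent.S56

open Fermat.Agent.MZ Fermat.Agent.S55 Fermat.Agent.S54 Fermat.Agent.S14.Reduction NumberField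
open ExtCitation
open scoped Pointwise

local notation "Qb" => AlgebraicClosure ℚ
local notation "GQ" => (AlgebraicClosure ℚ ≃ₐ[ℚ] AlgebraicClosure ℚ)

section generic

variable {A B G : Type*} [CommRing A] [CommRing B] [Algebra A B] [Group G]
  [MulSemiringAction G B] [SMulCommClass G A B]

attribute [local instance] Ideal.Quotient.field in
/-- every element of the decomposition group is a power of Frobenius modulo inertia -/
theorem s56w_frob_mod_inertia (P : Ideal A) (Q : Ideal B) [Q.IsPrime] [Q.LiesOver P]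
    [Finite (B ⧸ Q)] [Q.IsMaximal] [P.IsMaximal] [Fintype (A ⧸ P)] (φ : G)
    (hφst : φ ∈ MulAction.stabilizer G Q)
    (hφspec : ∀ x : B, φ • x - x ^ Nat.card (A ⧸ P) ∈ Q)
    (g : G) (hg : g ∈ MulAction.stabilizer G Q) :
    ∃ n : ℕ, ∀ x : B, ((φ ^ n)⁻¹ * g) • x - x ∈ Q := by
  have hfφ : Ideal.Quotient.stabilizerHom Q P G ⟨φ, hφst⟩ =
      FiniteField.frobeniusAlgEquivOfAlgebraic (A ⧸ P) (B ⧸ Q) := by
    apply AlgEquiv.ext
    intro x
    obtain ⟨x, rfl⟩ := Ideal.Quotient.mk_surjective x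
    rw [Ideal.Quotient.stabilizerHom_apply, FiniteField.coe_frobeniusAlgEquivOfAlgebraic]
    show Ideal.Quotient.mk Q (φ • x) = (Ideal.Quotient.mk Q x) ^ Fintype.card (A ⧸ P)
    rw [← map_pow, Ideal.Quotient.eq, ← Nat.card_eq_fintype_card]
    exact hφspec x
  obtain ⟨n, hn⟩ := (FiniteField.bijective_frobeniusAlgEquivOfAlgebraic_pow (A ⧸ P) (B ⧸ Q)).2
    (Ideal.Quotient.stabilizerHom Q P G ⟨g, hg⟩)
  have h2 : Ideal.Quotient.stabilizerHom Q P G (⟨φ, hφst⟩ ^ (n : ℕ)) =
      Ideal.Quotient.stabilizerHom Q P G ⟨g, hg⟩ := by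
    rw [map_pow, hfφ]
    exact hn
  refine ⟨(n : ℕ), ?_⟩
  have h3 : ((⟨φ, hφst⟩ : MulAction.stabilizer G Q) ^ (n : ℕ))⁻¹ * ⟨g, hg⟩ ∈
      (Ideal.Quotient.stabilizerHom Q P G).ker := by
    rw [MonoidHom.mem_ker, map_mul, map_inv, h2, inv_mul_cancel]
  rw [Ideal.Quotient.ker_stabilizerHom] at h3
  intro x
  have := AddSubgroup.mem_inertia.mp h3 x
  exact this

end generic

section level

attribute [local instance] Fermat.Agent.S54.galAction

variable (A : ValuationSubring Qb) {q : ℕ} (hq : q.Prime) (hA : A.LiesOverPrime q)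
  (K : IntermediateField ℚ Qb) [FiniteDimensional ℚ K] [IsGalois ℚ K] [NumberField K]

include hq hA in
/-- [FROB-GEN] at a finite Galois level -/
theorem s56w_frobGen_galois {φ : GQ} (hφ : A.IsFrobeniusAt φ q) {σ : GQ}
    (hσ : σ ∈ A.decompositionSubgroup ℚ) :
    ∃ n : ℤ, ∃ τ ∈ A.inertiaSubgroupIn ℚ, (φ ^ n * τ)⁻¹ * σ ∈ K.fixingSubgroup := by
  classical
  haveI : Fact q.Prime := ⟨hq⟩
  set Q : Ideal (𝓞 K) := pl_ideal K A with hQ
  set res : GQ →* (K ≃ₐ[ℚ] K) := AlgEquiv.restrictNormalHom K with hres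
  have hQ0 : Q ≠ ⊥ := pl_ideal_ne_bot K A hq hA
  haveI : Q.IsMaximal := Ideal.IsPrime.isMaximal inferInstance hQ0
  haveI : Finite (𝓞 K ⧸ Q) := Ideal.finiteQuotientOfFreeOfNeBot Q hQ0
  set P : Ideal ℤ := Ideal.span {(q : ℤ)} with hP
  haveI hPmax : P.IsMaximal := Int.ideal_span_isMaximal_of_prime q
  have hunder : Q.under ℤ = P := by
    symm
    apply hPmax.eq_of_le
    · exact (Ideal.IsPrime.under ℤ Q).ne_top
    · rw [Ideal.span_singleton_le_iff_mem, Ideal.under_def, Ideal.mem_comap]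
      have := pl_natCast_mem_ideal K A hA
      simpa using this
  haveI : Q.LiesOver P := ⟨hunder.symm⟩
  have hcard : Nat.card (ℤ ⧸ P) = q := Int.card_ideal_quot q
  haveI : Finite (ℤ ⧸ P) := Nat.finite_of_card_ne_zero (by rw [hcard]; exact hq.ne_zero)
  letI : Fintype (ℤ ⧸ P) := Fintype.ofFinite _
  have hσst : res σ ∈ MulAction.stabilizer (K ≃ₐ[ℚ] K) Q := by
    rw [← pl_map_decomposition K A hq hA]
    exact ⟨σ, hσ, rfl⟩
  have hφst : res φ ∈ MulAction.stabilizer (K ≃ₐ[ℚ] K) Q := by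
    rw [← pl_map_decomposition K A hq hA]
    exact ⟨φ, hφ.mem_decompositionSubgroup, rfl⟩
  have hφspec : ∀ x : 𝓞 K, res φ • x - x ^ Nat.card (ℤ ⧸ P) ∈ Q := by
    intro x
    rw [hcard]
    show toIntQbar K (res φ • x - x ^ q) ∈ pl_Q A
    rw [map_sub, map_pow, ← pl_smul_toIntQbar, pl_mem_Q]
    have h1 := (mzf3_tfa_unfold A hφ).2 _ (pl_intQbar_le A (toIntQbar K x))
    rw [ValuationSubring.mem_nonunits_iff] at h1
    exact h1
  obtain ⟨n, hn⟩ := s56w_frob_mod_inertia P Q (res φ) hφst hφspec (res σ) hσst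
  have hin : (res φ ^ n)⁻¹ * res σ ∈ Q.toAddSubgroup.inertia (K ≃ₐ[ℚ] K) :=
    AddSubgroup.mem_inertia.2 hn
  rw [← pl_map_inertia K A hq hA] at hin
  obtain ⟨τ, hτ, hτres⟩ := hin
  refine ⟨(n : ℤ), τ, hτ, ?_⟩
  rw [← ker_restrictNormalHom, MonoidHom.mem_ker]
  show res ((φ ^ (n : ℤ) * τ)⁻¹ * σ) = 1
  rw [map_mul, map_inv, map_mul, map_zpow, zpow_natCast, hτres]
  group

end level

section main

/-- **[FROB-GEN]** -/
theorem s56w_frobGen : s56w_FrobGen_stmt := by
  intro q φ hφ F hF σ hσ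
  haveI := hF
  haveI : Algebra.IsAlgebraic ℚ Qb := AlgebraicClosure.isAlgebraic ℚ
  haveI : IsAlgClosure ℚ Qb := ⟨inferInstance, inferInstance⟩
  haveI : Normal ℚ Qb := IsAlgClosure.normal ℚ Qb
  set K : IntermediateField ℚ Qb := IntermediateField.normalClosure ℚ ↥F Qb with hK
  haveI : Normal ℚ ↥K := normalClosure.normal ℚ ↥F Qb
  haveI : FiniteDimensional ℚ ↥K := normalClosure.is_finiteDimensional ℚ ↥F Qb
  haveI : IsGalois ℚ ↥K := ⟨⟩
  haveI : NumberField ↥K := { to_charZero := inferInstance, to_finiteDimensional := inferInstance }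
  obtain ⟨n, τ, hτ, h⟩ := s56w_frobGen_galois (primeLocalPlace q) q.2 (s56ld_liesOver q) K hφ hσ
  exact ⟨n, τ, hτ, IntermediateField.fixingSubgroup_antitone (IntermediateField.le_normalClosure F) h⟩

/-- **[LOC-TW]**: the local count at the Taylor–Wiles primes, `h¹(G_q, M) ≤ 2 h⁰(G_q, M)`. -/
theorem s56w_locTW : s56a_LocTW_stmt := s56w_main s56w_frobGen

end main

end Fermat.Agent.S56
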